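/-
Tower A1 / A1-KUM, leaf `k3`, input **DFROM** (helper102, 2nd independent owner).

`dFromG_of_genData` : GENERIC in `(Γ, F₀)` — if `T ∈ Γ`, `F₀ = ℚ(S)` is generated by series
realised by good functions (`H882.GenData`) and MERO holds (`H882.MeroG`), then `H882.DFromG Γ F₀ p`
for every `p ≠ 0`.

Route (no local data over `ℂ` needed): for `τ₀ ∈ ℍ` the Taylor expansion at `τ₀` of good functions
extends to an embedding `σ : ℂ·F₀ →+* ℂ((z))` (`IsFractionRing.lift`); `S24.H117.placeOfEmb σ` is a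
place `w` of `ℂ·F₀` and `ord (σ f) = k · ord_w f` (`H117.exists_mult`).  So if `p ∣ ord_w f` at
every place, then `p` divides the order of vanishing at every `τ₀` of the good function `G` with
`qexp G = f · t ^ p`, and `G = V ^ p` (`S29.H751.exists_pow_eq_UHP`).

`dFrom1 M ℓ : H441.DFrom1 M ℓ` is the instance `(Γ₁(M), F1 M)`.
-/
import Fermat.Agent.S48.H441.K3Leaf
import Fermat.Agent.S24.H117.EmbPlace
import Fermat.Agent.S24.H624.Laurent
import Fermat.Agent.S29.H751.PthRootUHP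

set_option autoImplicit false
set_option linter.style.haveILetI false
set_option linter.unusedSectionVars false

noncomputable section

open UpperHalfPlane ModularGroup CongruenceSubgroup Polynomial ModularCurve AlgebraicCurve
open scoped MatrixGroups Manifold Modular Real

namespace Fermat.Agent.S48.H102

open Fermat.Agent.S24 Fermat.Agent.S24.H648 Fermat.Agent.S24.H708 Fermat.Agent.S24.Deg457
open Fermat.Agent.S24.H624 Fermat.Agent.S48.H882

section Generic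

variable {Γ : Subgroup SL(2, ℤ)} {F₀ : IntermediateField ℚ (LaurentSeries ℚ)}
  {S : Set (LaurentSeries ℚ)}

/-- Good functions are holomorphic: the inclusion `goodRingG Γ → holoRing`. -/
def goodToHolo (Γ : Subgroup SL(2, ℤ)) : goodRingG Γ →+* holoRing where
  toFun G := ⟨G.1, G.2.1⟩
  map_one' := rfl
  map_mul' _ _ := rfl
  map_zero' := rfl
  map_add' _ _ := rfl

theorem goodToHolo_injective (Γ : Subgroup SL(2, ℤ)) : Function.Injective (goodToHolo Γ) := by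
  intro x y h
  exact Subtype.ext (congrArg (fun f : holoRing => (f : ℍ → ℂ)) h)

/-- The `q`-expansion at `i∞` as a ring homomorphism from the good functions to `ℂ·F₀`. -/
def qexpHomG (hT : ModularGroup.T ∈ Γ) (hmero : MeroG Γ F₀) :
    goodRingG Γ →+* ↥(laurentBaseChange ℂ F₀) where
  toFun G := ⟨qexpFun 1 (G : ℍ → ℂ), hmero G G.2⟩
  map_one' := Subtype.ext <| by
    show qexpFun 1 (fun _ : ℍ => (1 : ℂ)) = 1
    rw [qexpFun_const, map_one]
  map_mul' a b := Subtype.ext <| by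
    show qexpFun 1 ((a : ℍ → ℂ) * (b : ℍ → ℂ)) = qexpFun 1 (a : ℍ → ℂ) * qexpFun 1 (b : ℍ → ℂ)
    exact qexpFun_mul (isMerInf_of_goodG hT a.2) (isMerInf_of_goodG hT b.2)
  map_zero' := Subtype.ext <| by
    show qexpFun 1 (fun _ : ℍ => (0 : ℂ)) = 0
    rw [qexpFun_const, map_zero]
  map_add' a b := Subtype.ext <| by
    show qexpFun 1 ((a : ℍ → ℂ) + (b : ℍ → ℂ)) = qexpFun 1 (a : ℍ → ℂ) + qexpFun 1 (b : ℍ → ℂ)
    exact qexpFun_add (isMerInf_of_goodG hT a.2) (isMerInf_of_goodG hT b.2)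

@[simp] theorem coe_qexpHomG (hT : ModularGroup.T ∈ Γ) (hmero : MeroG Γ F₀) (G : goodRingG Γ) :
    ((qexpHomG hT hmero G : ↥(laurentBaseChange ℂ F₀)) : LaurentSeries ℂ)
      = qexpFun 1 (G : ℍ → ℂ) := rfl

theorem qexpHomG_injective (hT : ModularGroup.T ∈ Γ) (hmero : MeroG Γ F₀) :
    Function.Injective (qexpHomG (F₀ := F₀) hT hmero) := by
  rw [injective_iff_map_eq_zero]
  intro G hG
  have h1 : qexpFun 1 (G : ℍ → ℂ) = 0 := congrArg Subtype.val hG
  exact Subtype.ext ((qexpFun_eq_zero_iff (isMerInf_of_goodG hT G.2)).mp h1)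

theorem qexpHomG_algebraMap (hT : ModularGroup.T ∈ Γ) (hmero : MeroG Γ F₀) (c : ℂ) :
    qexpHomG hT hmero (algebraMap ℂ (goodRingG Γ) c) = algebraMap ℂ ↥(laurentBaseChange ℂ F₀) c := by
  apply Subtype.ext
  show qexpFun 1 (fun _ : ℍ => c) = algebraMap ℂ (LaurentSeries ℂ) c
  rw [qexpFun_const, algebraMap_laurentSeries_eq_single]
  rfl

/-- Every element of `ℂ·F₀` is a quotient of `q`-expansions of good functions. -/
theorem exists_div_qexpHomG (hT : ModularGroup.T ∈ Γ) (hgen : GenData Γ F₀ S)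
    (hmero : MeroG Γ F₀) (z : ↥(laurentBaseChange ℂ F₀)) :
    ∃ x y : goodRingG Γ, z = qexpHomG hT hmero x / qexpHomG hT hmero y := by
  obtain ⟨a, ⟨A, hA, hAa⟩, b, ⟨B, hB, hBb⟩, -, hz⟩ := hgen.exists_div_goodQG z.2
  refine ⟨⟨A, hA⟩, ⟨B, hB⟩, ?_⟩
  apply Subtype.ext
  rw [hz]
  show a / b = ((qexpHomG hT hmero ⟨A, hA⟩ / qexpHomG hT hmero ⟨B, hB⟩ :
    ↥(laurentBaseChange ℂ F₀)) : LaurentSeries ℂ)
  rw [IntermediateField.coe_div, coe_qexpHomG, coe_qexpHomG, hAa.qexpFun_eq, hBb.qexpFun_eq]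

/-- The Taylor expansion at `τ₀` of a good function, as a Laurent series. -/
def taylorGood (Γ : Subgroup SL(2, ℤ)) (τ₀ : ℍ) : goodRingG Γ →+* LaurentSeries ℂ :=
  (taylorLaurent τ₀).comp (goodToHolo Γ)

theorem taylorGood_apply (Γ : Subgroup SL(2, ℤ)) (τ₀ : ℍ) (G : goodRingG Γ) :
    taylorGood Γ τ₀ G = taylorLaurent τ₀ (goodToHolo Γ G) := rfl

theorem taylorGood_injective (Γ : Subgroup SL(2, ℤ)) (τ₀ : ℍ) :
    Function.Injective (taylorGood Γ τ₀) := by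
  intro x y h
  exact goodToHolo_injective Γ (taylorLaurent_injective τ₀ h)

/-- the algebra structure of `ℂ·F₀` over the good functions -/
@[reducible] def algGood (hT : ModularGroup.T ∈ Γ) (hmero : MeroG Γ F₀) :
    Algebra (goodRingG Γ) ↥(laurentBaseChange ℂ F₀) := (qexpHomG hT hmero).toAlgebra

theorem isFractionRing_good (hT : ModularGroup.T ∈ Γ) (hgen : GenData Γ F₀ S)
    (hmero : MeroG Γ F₀) :
    letI := algGood (F₀ := F₀) hT hmero
    IsFractionRing (goodRingG Γ) ↥(laurentBaseChange ℂ F₀) := by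
  letI := algGood (F₀ := F₀) hT hmero
  haveI : FaithfulSMul (goodRingG Γ) ↥(laurentBaseChange ℂ F₀) :=
    (faithfulSMul_iff_algebraMap_injective _ _).mpr (qexpHomG_injective hT hmero)
  exact IsFractionRing.of_field _ _ fun z => by
    obtain ⟨x, y, h⟩ := exists_div_qexpHomG hT hgen hmero z
    exact ⟨x, y, h⟩

/-- **The Taylor embedding** at `τ₀` of `ℂ·F₀` into `ℂ((z))`. -/
def taylorEmb (hT : ModularGroup.T ∈ Γ) (hgen : GenData Γ F₀ S) (hmero : MeroG Γ F₀) (τ₀ : ℍ) :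
    ↥(laurentBaseChange ℂ F₀) →+* LaurentSeries ℂ :=
  letI := algGood (F₀ := F₀) hT hmero
  haveI := isFractionRing_good hT hgen hmero
  IsFractionRing.lift (taylorGood_injective Γ τ₀)

theorem taylorEmb_qexpHomG (hT : ModularGroup.T ∈ Γ) (hgen : GenData Γ F₀ S)
    (hmero : MeroG Γ F₀) (τ₀ : ℍ) (G : goodRingG Γ) :
    taylorEmb hT hgen hmero τ₀ (qexpHomG hT hmero G) = taylorLaurent τ₀ (goodToHolo Γ G) := by
  letI := algGood (F₀ := F₀) hT hmero
  haveI := isFractionRing_good hT hgen hmero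
  exact IsFractionRing.lift_algebraMap (taylorGood_injective Γ τ₀) G

/-- The order of the Taylor embedding of the `q`-expansion of a good function `G ≢ 0` is the
order of vanishing of `G` at `τ₀`. -/
theorem order_taylorEmb_qexpHomG (hT : ModularGroup.T ∈ Γ) (hgen : GenData Γ F₀ S)
    (hmero : MeroG Γ F₀) (τ₀ : ℍ) (G : goodRingG Γ) {n : ℕ}
    (hn : analyticOrderAt ((G : ℍ → ℂ) ∘ ofComplex) (τ₀ : ℂ) = n) :
    (taylorEmb hT hgen hmero τ₀ (qexpHomG hT hmero G)).order = (n : ℤ) := by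
  rw [taylorEmb_qexpHomG, taylorLaurent_apply]
  apply order_ofPowerSeries
  rw [order_taylorAt, ordAt_def]
  exact hn

theorem taylorEmb_algebraMap (hT : ModularGroup.T ∈ Γ) (hgen : GenData Γ F₀ S)
    (hmero : MeroG Γ F₀) (τ₀ : ℍ) (c : ℂ) :
    taylorEmb hT hgen hmero τ₀ (algebraMap ℂ ↥(laurentBaseChange ℂ F₀) c) = HahnSeries.C c := by
  rw [← qexpHomG_algebraMap hT hmero c, taylorEmb_qexpHomG, taylorLaurent_apply]
  have : goodToHolo Γ (algebraMap ℂ (goodRingG Γ) c) = algebraMap ℂ holoRing c := rfl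
  rw [this, AlgHom.commutes, PowerSeries.algebraMap_apply, Algebra.algebraMap_self,
    RingHom.id_apply, HahnSeries.ofPowerSeries_C]

/-- A good function for `Γ` vanishing at `τ₀` and not identically zero. -/
theorem exists_good_vanishing (Γ : Subgroup SL(2, ℤ)) (τ₀ : ℍ) :
    ∃ A : goodRingG Γ, (A : ℍ → ℂ) ≠ 0 ∧ (A : ℍ → ℂ) τ₀ = 0 := by
  obtain ⟨f, hf, hq⟩ := JK_mem_goodQG Γ
  refine ⟨⟨f, hf⟩ - algebraMap ℂ (goodRingG Γ) (f τ₀), ?_, ?_⟩
  · intro h0
    have h1 : f = fun _ => f τ₀ := by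
      funext τ
      have := congrFun h0 τ
      simp only [Subalgebra.coe_sub, Pi.sub_apply, Pi.zero_apply] at this
      have h2 : ((algebraMap ℂ (goodRingG Γ) (f τ₀) : goodRingG Γ) : ℍ → ℂ) τ = f τ₀ := rfl
      rw [h2] at this
      exact sub_eq_zero.mp this
    have h3 : qexpFun 1 f = HahnSeries.C (f τ₀) := by
      conv_lhs => rw [h1]
      exact qexpFun_const 1 (f τ₀)
    rw [hq.qexpFun_eq] at h3
    have h4 : (JK ℂ).coeff (-1) = (HahnSeries.C (f τ₀) : LaurentSeries ℂ).coeff (-1) := by rw [h3]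
    have h5 : (JK ℂ).coeff (-1) = 1 := by
      show (coeffEmb ℂ jq).coeff (-1) = 1
      rw [coeffEmb_coeff, coeff_jq_neg_one, map_one]
    rw [h5] at h4
    have h6 : (HahnSeries.C (f τ₀) : LaurentSeries ℂ).coeff (-1) = 0 := by
      show (HahnSeries.single 0 (f τ₀)).coeff (-1) = 0
      exact HahnSeries.coeff_single_of_ne (by norm_num)
    rw [h6] at h4
    exact one_ne_zero h4
  · show f τ₀ - f τ₀ = 0
    exact sub_self _

/-- **DICT-easy over `ℂ`, generic**: if `p` divides the order of `qexp G` at every place of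
`ℂ·F₀`, then `p` divides the order of vanishing of the good function `G` at every `τ₀ ∈ ℍ`. -/
theorem exists_ordAt_eq_mul_of_forall_dvd (hT : ModularGroup.T ∈ Γ) (hgen : GenData Γ F₀ S)
    (hmero : MeroG Γ F₀) {G : ℍ → ℂ} (hG : GoodG Γ G) (hG0 : G ≠ 0) {p : ℕ}
    (hdvd : ∀ w : Place ℂ ↥(laurentBaseChange ℂ F₀),
      (p : ℤ) ∣ w.ord (qexpHomG hT hmero ⟨G, hG⟩)) (τ₀ : ℍ) :
    ∃ m : ℕ, analyticOrderAt (G ∘ ofComplex) (τ₀ : ℂ) = ((p * m : ℕ) : ℕ∞) := by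
  set σ := taylorEmb hT hgen hmero τ₀ with hσ
  -- constants
  have hK : ∀ c : ℂ, 0 ≤ H117.eord σ (algebraMap ℂ ↥(laurentBaseChange ℂ F₀) c) := by
    intro c
    show 0 ≤ (σ (algebraMap ℂ ↥(laurentBaseChange ℂ F₀) c)).order
    rw [hσ, taylorEmb_algebraMap, HahnSeries.order_C]
  -- nontriviality
  obtain ⟨A, hA0, hAτ⟩ := exists_good_vanishing Γ τ₀
  have hAtop : ordAt τ₀ (A : ℍ → ℂ) ≠ ⊤ := ordAt_ne_top A.2.1 hA0 τ₀
  obtain ⟨a, ha⟩ := ENat.ne_top_iff_exists.mp hAtop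
  have ha' : analyticOrderAt ((A : ℍ → ℂ) ∘ ofComplex) (τ₀ : ℂ) = a := by
    rw [← ordAt_def]; exact ha.symm
  have ha0 : a ≠ 0 := by
    intro h0
    rw [h0] at ha'
    have han := analyticAt_of_mdiff A.2.1 τ₀
    have h1 := (han.analyticOrderAt_eq_zero).mp (by exact_mod_cast ha')
    apply h1
    show (A : ℍ → ℂ) (ofComplex (τ₀ : ℂ)) = 0
    rw [ofComplex_apply]
    exact hAτ
  have hnt : ∃ t : ↥(laurentBaseChange ℂ F₀), H117.eord σ t ≠ 0 := by
    refine ⟨qexpHomG hT hmero A, ?_⟩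
    show (σ (qexpHomG hT hmero A)).order ≠ 0
    rw [hσ, order_taylorEmb_qexpHomG hT hgen hmero τ₀ A ha']
    exact_mod_cast ha0
  obtain ⟨k, hk, hmult⟩ := H117.exists_mult σ hK hnt
  -- the order of `G`
  have hGtop : ordAt τ₀ G ≠ ⊤ := ordAt_ne_top hG.1 hG0 τ₀
  obtain ⟨n, hn⟩ := ENat.ne_top_iff_exists.mp hGtop
  have hn' : analyticOrderAt (G ∘ ofComplex) (τ₀ : ℂ) = n := by
    rw [← ordAt_def]; exact hn.symm
  have h1 : H117.eord σ (qexpHomG hT hmero ⟨G, hG⟩) = (n : ℤ) := by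
    show (σ (qexpHomG hT hmero ⟨G, hG⟩)).order = (n : ℤ)
    rw [hσ]
    exact order_taylorEmb_qexpHomG hT hgen hmero τ₀ ⟨G, hG⟩ hn'
  have h2 := hmult (qexpHomG hT hmero ⟨G, hG⟩)
  rw [h1] at h2
  obtain ⟨c, hc⟩ := hdvd (H117.placeOfEmb σ hK hnt)
  rw [hc] at h2
  have h3 : (p : ℤ) ∣ (n : ℤ) := ⟨(k : ℤ) * c, by rw [h2]; ring⟩
  obtain ⟨m, hm⟩ := Int.natCast_dvd_natCast.mp h3
  exact ⟨m, by rw [hn', hm]⟩

/-- **DFROM, generic in `(Γ, F₀)`.** -/
theorem dFromG_of_genData (hT : ModularGroup.T ∈ Γ) (hgen : GenData Γ F₀ S)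
    (hmero : MeroG Γ F₀) {p : ℕ} (hp : p ≠ 0) : DFromG Γ F₀ p := by
  intro f hf0 hdvd
  -- write `f = r / t` with `r, t` polynomials in the generators
  obtain ⟨r, hr, t, ht, ht0, hfrt⟩ := exists_div_AKG ℂ hgen.le_adjoin f.2
  have htF : t ∈ laurentBaseChange ℂ F₀ := AKG_le_laurentBaseChange ℂ hgen.subset ht
  have hrF : r ∈ laurentBaseChange ℂ F₀ := AKG_le_laurentBaseChange ℂ hgen.subset hr
  have hp1 : p - 1 + 1 = p := Nat.sub_add_cancel (Nat.one_le_iff_ne_zero.mpr hp)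
  -- the good function with `q`-expansion `r * t ^ (p - 1) = f * t ^ p`
  have hmem : r * t ^ (p - 1) ∈ AKG ℂ S := mul_mem hr (pow_mem ht _)
  obtain ⟨G, hG, hGq⟩ := hgen.AKG_le_goodQG hmem
  have hgL : (f : LaurentSeries ℂ) * t ^ p = r * t ^ (p - 1) := by
    rw [hfrt]
    conv_lhs => rw [← hp1, pow_succ]
    field_simp
  have hqG : qexpFun 1 G = (f : LaurentSeries ℂ) * t ^ p := by
    rw [hGq.qexpFun_eq, hgL]
  have hfL : (f : LaurentSeries ℂ) ≠ 0 := fun h0 => hf0 (Subtype.ext h0)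
  have hG0 : G ≠ 0 := by
    intro h0
    have h1 : qexpFun 1 G = 0 := (qexpFun_eq_zero_iff hGq.isMerInf).mpr h0
    rw [hqG] at h1
    rcases mul_eq_zero.mp h1 with h | h
    · exact hfL h
    · exact ht0 (pow_eq_zero_iff hp |>.mp h)
  -- divisibility of the orders of `f * t ^ p`
  have htF0 : (⟨t, htF⟩ : ↥(laurentBaseChange ℂ F₀)) ≠ 0 := fun h0 =>
    ht0 (congrArg Subtype.val h0)
  have hGF : qexpHomG hT hmero ⟨G, hG⟩ = f * (⟨t, htF⟩ : ↥(laurentBaseChange ℂ F₀)) ^ p := by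
    apply Subtype.ext
    rw [coe_qexpHomG]
    show qexpFun 1 G = _
    rw [hqG]
    simp
  have hdvd' : ∀ w : Place ℂ ↥(laurentBaseChange ℂ F₀),
      (p : ℤ) ∣ w.ord (qexpHomG hT hmero ⟨G, hG⟩) := by
    intro w
    rw [hGF, w.ord_mul hf0 (pow_ne_zero p htF0), H117.ord_pow]
    exact dvd_add (hdvd w) (dvd_mul_right _ _)
  -- the root
  obtain ⟨V, hVmd, hVp⟩ := Fermat.Agent.S29.H751.exists_pow_eq_UHP hG.1 p hp
    (fun τ => exists_ordAt_eq_mul_of_forall_dvd hT hgen hmero hG hG0 hdvd' τ)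
  have hVG : (fun τ => V τ ^ p) = G := funext hVp
  refine ⟨t, htF, ht0, V, hVmd, hVG ▸ hG, ?_⟩
  rw [hVG, hqG]

end Generic

/-! ### The instance `(Γ₁(M), F1 M)` -/

/-- **DFROM for `(Γ₁(M), F1 M)`** (input of leaf `k3`). -/
theorem dFrom1 (M : ℕ) [NeZero M] (ℓ : ℕ) (hℓ : ℓ ≠ 0) : H441.DFrom1 M ℓ :=
  dFromG_of_genData (Kum.T_mem_Gamma1 M) (H441.genData_F1_441 M) (H441.meroG_F1_441 M) hℓ

/-- The hypothesis `hd` of `H441.leafK3_441`, verbatim. -/
theorem leaf_dFrom1 : ∀ (M : ℕ) [NeZero M] (ℓ : ℕ), ℓ.Prime → H441.DFrom1 M ℓ :=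
  fun M _ ℓ hℓ => dFrom1 M ℓ hℓ.ne_zero

end Fermat.Agent.S48.H102
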