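/-
Tower A1 / A1-KUM (helper102): the leaf `const` of `Kum.Leaves`:
`DictConst (F1Bar M)` — an element of `ℚ̄·F1(M)` without zeros and poles is a constant.

Adapter: `S18.H564.exists_const_of_forall_ord_eq_zero` (generic CONST_F) applied to the coordinate
`j` of `ℚ̄·F1(M)`, with helper332's FF-ALG instance (`H332.f1_finiteDimensional`, `f1DataInf`).
-/
import Fermat.Agent.S48.Kum.M4b1
import Fermat.Agent.S48.H332.F1Inst
import Fermat.Agent.S18.H564.ConstF

set_option autoImplicit false

noncomputable section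

open ModularCurve AlgebraicCurve IntermediateField
open scoped MatrixGroups

namespace Fermat.Agent.S48.H102

open Fermat.Agent.S24 Fermat.Agent.S29 Fermat.Agent.S48.F1 Fermat.Agent.S48.Kum
open Fermat.Agent.S48.H332

/-- `j` is transcendental over `ℚ̄` in `ℚ̄·F1(M)`. -/
theorem transcendental_f1J (M : ℕ) [NeZero M] : Transcendental Kbar (f1J M) := by
  have : Nonempty (SL(2, ℤ) ⧸ pmGamma1 M) := ⟨((1 : SL(2, ℤ)) : SL(2, ℤ) ⧸ pmGamma1 M)⟩
  exact Fermat.Agent.S24.transcendental_of_localData_inv (f1J M) (f1DataInf M)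

/-- **Leaf `const` of `Kum.Leaves`**: `DictConst (F1Bar M)`. -/
theorem dictConst_F1Bar (M : ℕ) [NeZero M] : DictConst (F1Bar M) := by
  intro u _ hu
  haveI := f1_finiteDimensional M
  exact Fermat.Agent.S18.H564.exists_const_of_forall_ord_eq_zero (f1J M) (transcendental_f1J M) u hu

/-- The field `const` of `Kum.Leaves`, verbatim. -/
theorem leaves_const : ∀ (M : ℕ) [NeZero M], DictConst (F1Bar M) :=
  fun M _ => dictConst_F1Bar M

end Fermat.Agent.S48.H102
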